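import Fermat.Agent.FD.Fibers

/-!
# FD, task F6: the primes of degree one not dividing `δ` have `∑ N w^{-s} = log (1/(s-1)) + O(1)`

Sketch.  Upper bound: `primeSum_mono` + `Fermat.Agent.S14.primeSum_univ_le`.
Lower bound: `Fermat.Agent.S14.le_primeSum_degree_one`;
`{N w prime} ⊆ goodOne M δ ∪ {w | below w ∣ δ}`, `primeSum_union_le`, `finite_below_dvd`,
`primeSum_le_ncard_of_finite`.
-/

set_option autoImplicit false

namespace Fermat.Agent.FD

open NumberField IsDedekindDomain Filter Topology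
open Fermat.Agent.S14

variable (M : Type*) [Field M] [NumberField M]

theorem primeSum_goodOne_bounds {δ : ℕ} (hδ : δ ≠ 0) :
    ∃ C : ℝ, ∀ᶠ s in 𝓝[>] (1 : ℝ),
      |primeSum (goodOne M δ) s - Real.log (1 / (s - 1))| ≤ C := by
  obtain ⟨C₁, h1⟩ := primeSum_univ_le M
  obtain ⟨C₂, h2⟩ := le_primeSum_degree_one M
  set n : ℝ := ({P : HeightOneSpectrum (𝓞 M) | below M P ∣ δ}.ncard : ℝ) with hn
  refine ⟨|C₁| + |C₂| + n, ?_⟩
  filter_upwards [h1, h2, self_mem_nhdsWithin] with s e1 e2 hs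
  have hs' : 1 < s := hs
  have hsum := summable_primeNorm_rpow M hs'
  have hn0 : 0 ≤ n := Nat.cast_nonneg _
  have u1 : primeSum (goodOne M δ) s ≤ primeSum (Set.univ : Set (HeightOneSpectrum (𝓞 M))) s :=
    primeSum_mono (Set.subset_univ _) hsum
  have l1 : primeSum {v : HeightOneSpectrum (𝓞 M) | (Ideal.absNorm v.asIdeal).Prime} s ≤
      primeSum (goodOne M δ ∪ {P : HeightOneSpectrum (𝓞 M) | below M P ∣ δ}) s :=
    primeSum_mono (fun v hv => by
      by_cases h : below M v ∣ δ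
      · exact Or.inr h
      · exact Or.inl ⟨h, hv⟩) hsum
  have l2 := primeSum_union_le (goodOne M δ) {P : HeightOneSpectrum (𝓞 M) | below M P ∣ δ} hsum
  have l3 : primeSum {P : HeightOneSpectrum (𝓞 M) | below M P ∣ δ} s ≤ n :=
    primeSum_le_ncard_of_finite (finite_below_dvd M hδ) (by linarith)
  rw [abs_le]
  constructor
  · linarith [le_abs_self C₂, abs_nonneg C₁]
  · linarith [le_abs_self C₁, abs_nonneg C₂]

end Fermat.Agent.FD
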