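import Fermat.Agent.FD.Defs

/-!
# FD, task F1a: basic facts on `below` and `underH`

Hints.  `Int.ideal_eq_span_absNorm_self`; `Ideal.IsPrime.under`, `Ideal.under_ne_bot`;
`Ideal.span_singleton_prime`, `Nat.prime_iff_prime_int`; `Ideal.mem_comap`/`Ideal.under_def`,
`Ideal.mem_span_singleton`, `Int.natCast_dvd_natCast`; `Ideal.absNorm_eq_pow_inertiaDeg` (check the
current form: `(span {p}).inertiaDeg' P` vs `P.inertiaDeg ℤ`); `Nat.Prime.pow_eq_iff`,
`Nat.prime_pow_iff`/`Nat.Prime.eq_one_of_pos_of_dvd`; `Ideal.under_under`.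
-/

set_option autoImplicit false
set_option linter.unusedSectionVars false

namespace Fermat.Agent.FD

open NumberField IsDedekindDomain Pointwise

variable (L : Type*) [Field L] [NumberField L]

theorem under_eq_span (P : HeightOneSpectrum (𝓞 L)) :
    P.asIdeal.under ℤ = Ideal.span {(below L P : ℤ)} :=
  (Int.ideal_span_absNorm_eq_self _).symm

theorem below_prime (P : HeightOneSpectrum (𝓞 L)) : (below L P).Prime := by
  have := P.isPrime
  have : NeZero P.asIdeal := ⟨P.ne_bot⟩
  exact Nat.absNorm_under_prime P.asIdeal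

instance liesOver_below (P : HeightOneSpectrum (𝓞 L)) :
    P.asIdeal.LiesOver (Ideal.span {(below L P : ℤ)}) := ⟨(under_eq_span L P).symm⟩

theorem natCast_mem_iff (P : HeightOneSpectrum (𝓞 L)) (n : ℕ) :
    (n : 𝓞 L) ∈ P.asIdeal ↔ below L P ∣ n := by
  have h := Int.cast_mem_ideal_iff (I := P.asIdeal) (d := (n : ℤ))
  rw [Int.cast_natCast, Int.natCast_dvd_natCast] at h
  exact h

/-- `N P = p ^ f`. -/
theorem absNorm_eq_below_pow (P : HeightOneSpectrum (𝓞 L)) :
    Ideal.absNorm P.asIdeal = below L P ^ P.asIdeal.inertiaDeg ℤ := by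
  have := P.isPrime
  exact (Ideal.pow_inertiaDeg (below L P) P.asIdeal).symm

theorem absNorm_prime_iff (P : HeightOneSpectrum (𝓞 L)) :
    (Ideal.absNorm P.asIdeal).Prime ↔ P.asIdeal.inertiaDeg ℤ = 1 := by
  rw [absNorm_eq_below_pow]
  constructor
  · intro h
    exact Nat.Prime.eq_one_of_pow h
  · intro h
    rw [h, pow_one]
    exact below_prime L P

theorem absNorm_eq_below_of_prime (P : HeightOneSpectrum (𝓞 L))
    (h : (Ideal.absNorm P.asIdeal).Prime) : Ideal.absNorm P.asIdeal = below L P := by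
  rw [absNorm_eq_below_pow, (absNorm_prime_iff L P).mp h, pow_one]

variable {L}

instance liesOver_underH (M : Type*) [Field M] [NumberField M] [Algebra M L]
    (P : HeightOneSpectrum (𝓞 L)) : P.asIdeal.LiesOver (underH M P).asIdeal := ⟨rfl⟩

theorem below_underH (M : Type*) [Field M] [NumberField M] [Algebra M L]
    (P : HeightOneSpectrum (𝓞 L)) : below M (underH M P) = below L P := by
  unfold below underH
  rw [Ideal.under_under]

end Fermat.Agent.FD
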