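import Fermat.Agent.FD.Local

/-!
# FD, task F9: at an unramified prime the decomposition group is generated by any Frobenius element

Sketch.  `τ ∈ dec P`: if `x ∈ P` then `τ • x = (τ • x - x ^ p) + x ^ p ∈ P`, so `τ • P ≤ P`, equality
because both are maximal (Mathlib: `AlgHom.IsArithFrobAt.mem_stabilizer` in
`Mathlib/RingTheory/Frobenius.lean`).  `Ideal.Quotient.stabilizerHom P (span {p}) G :
stabilizer G P →* ((𝓞 L ⧸ P) ≃ₐ[ℤ ⧸ span {p}] (𝓞 L ⧸ P))` has kernel the inertia group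
(`Ideal.Quotient.ker_stabilizerHom`), so is injective.  It maps `τ` to `x ↦ x ^ p`.  Every
automorphism of the finite field `𝓞 L ⧸ P` is a power of the Frobenius
(`FiniteField.bijective_frobeniusAlgEquivOfAlgebraic_pow`; or count: `|dec P| = f` by `card_dec_eq`
and the order of `x ↦ x ^ p` on a field with `p ^ f` elements is `f`).
-/

set_option autoImplicit false
set_option linter.unusedSectionVars false

namespace Fermat.Agent.FD

open NumberField IsDedekindDomain Pointwise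

variable (L : Type*) [Field L] [NumberField L] [IsGalois ℚ L]

theorem cyclic_card_quot (P : HeightOneSpectrum (𝓞 L)) :
    Nat.card (ℤ ⧸ P.asIdeal.under ℤ) = below L P := by
  unfold below
  rw [Ideal.absNorm_apply, Submodule.cardQuot_apply]

theorem mem_dec_of_frob (P : HeightOneSpectrum (𝓞 L)) (τ : Gal(L/ℚ))
    (hτ : ∀ x : 𝓞 L, τ • x - x ^ below L P ∈ P.asIdeal) : τ ∈ dec L P := by
  have := P.isPrime
  have h : IsArithFrobAt ℤ τ P.asIdeal := by
    intro x
    rw [cyclic_card_quot]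
    exact hτ x
  exact h.mem_stabilizer

theorem cyclic_mk_pow_smul (P : HeightOneSpectrum (𝓞 L)) (τ : Gal(L/ℚ))
    (hτ : ∀ x : 𝓞 L, τ • x - x ^ below L P ∈ P.asIdeal) (j : ℕ) (x : 𝓞 L) :
    Ideal.Quotient.mk P.asIdeal (τ ^ j • x) = (Ideal.Quotient.mk P.asIdeal x) ^ (below L P ^ j) := by
  induction j with
  | zero => simp
  | succ j ih =>
    rw [pow_succ', mul_smul, pow_succ, pow_mul, ← ih, ← map_pow, Ideal.Quotient.eq]
    exact hτ _

theorem cyclic_le_orderOf (P : HeightOneSpectrum (𝓞 L)) (τ : Gal(L/ℚ))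
    (hτ : ∀ x : 𝓞 L, τ • x - x ^ below L P ∈ P.asIdeal) :
    P.asIdeal.inertiaDeg ℤ ≤ orderOf τ := by
  classical
  have hp := below_prime L P
  set m := orderOf τ with hm
  have hm0 : m ≠ 0 := (orderOf_pos τ).ne'
  have hmax := P.isMaximal
  let _ : Field (𝓞 L ⧸ P.asIdeal) := Ideal.Quotient.field P.asIdeal
  have hfin : Finite (𝓞 L ⧸ P.asIdeal) := Ring.HasFiniteQuotients.finiteQuotient P.ne_bot
  have := Fintype.ofFinite (𝓞 L ⧸ P.asIdeal)
  have hall : ∀ y : 𝓞 L ⧸ P.asIdeal, y ^ (below L P ^ m) = y := by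
    intro y
    obtain ⟨x, rfl⟩ := Ideal.Quotient.mk_surjective y
    rw [← cyclic_mk_pow_smul L P τ hτ m x, hm, pow_orderOf_eq_one, one_smul]
  have h1 := Polynomial.card_le_degree_of_subset_roots (R := 𝓞 L ⧸ P.asIdeal)
    (p := Polynomial.X ^ (below L P ^ m) - Polynomial.X) (Z := Finset.univ) fun y _ => by
      rw [Polynomial.mem_roots (FiniteField.X_pow_card_pow_sub_X_ne_zero _ hm0 hp.one_lt)]
      simp [Polynomial.IsRoot, hall y]
  rw [FiniteField.X_pow_card_pow_sub_X_natDegree_eq _ hm0 hp.one_lt, Finset.card_univ,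
    ← Nat.card_eq_fintype_card] at h1
  have h2 : Nat.card (𝓞 L ⧸ P.asIdeal) = below L P ^ P.asIdeal.inertiaDeg ℤ := by
    rw [← absNorm_eq_below_pow, Ideal.absNorm_apply, Submodule.cardQuot_apply]
  rw [h2] at h1
  exact (Nat.pow_le_pow_iff_right hp.one_lt).mp h1

theorem dec_eq_zpowers_of_frob (P : HeightOneSpectrum (𝓞 L))
    (hI : Ideal.inertia Gal(L/ℚ) P.asIdeal = ⊥) (τ : Gal(L/ℚ))
    (hτ : ∀ x : 𝓞 L, τ • x - x ^ below L P ∈ P.asIdeal) :
    dec L P = Subgroup.zpowers τ := by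
  symm
  apply Subgroup.eq_of_le_of_card_ge
  · exact (Subgroup.zpowers_le).mpr (mem_dec_of_frob L P τ hτ)
  · rw [card_dec_eq L P hI, Nat.card_zpowers]
    exact cyclic_le_orderOf L P τ hτ

end Fermat.Agent.FD
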