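import Fermat.Agent.S14.Density.Zeta

/-!
# FD (Frobenius density, "density-lite"): definitions

`L` is a number field, Galois over `ℚ`, `G = Gal(L/ℚ)`.  For a prime `P` of `L` we write `below P`
for the rational prime under `P` and `dec P ≤ G` for its decomposition group.
-/

set_option autoImplicit false

namespace Fermat.Agent.FD

open NumberField IsDedekindDomain Pointwise

variable (L : Type*) [Field L] [NumberField L]

/-- the rational prime below a prime of `L`. -/
noncomputable def below (P : HeightOneSpectrum (𝓞 L)) : ℕ := Ideal.absNorm (P.asIdeal.under ℤ)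

variable {L} in
/-- the prime of a subfield `M` below a prime of `L`. -/
noncomputable def underH (M : Type*) [Field M] [NumberField M] [Algebra M L]
    (P : HeightOneSpectrum (𝓞 L)) : HeightOneSpectrum (𝓞 M) where
  asIdeal := P.asIdeal.under (𝓞 M)
  isPrime := Ideal.IsPrime.under (𝓞 M) P.asIdeal
  ne_bot := by
    have := P.isPrime
    exact Ideal.under_ne_bot (𝓞 M) P.ne_bot

/-- the decomposition group. -/
def dec (P : HeightOneSpectrum (𝓞 L)) : Subgroup Gal(L/ℚ) :=
  MulAction.stabilizer Gal(L/ℚ) P.asIdeal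

/-- the fixed field of a subgroup. -/
abbrev fixedF (U : Subgroup Gal(L/ℚ)) : IntermediateField ℚ L := FixedPoints.intermediateField U

/-- the weighted term `|D_P| p_P^{-s}`. -/
noncomputable def wTerm (s : ℝ) (P : HeightOneSpectrum (𝓞 L)) : ℝ :=
  (Nat.card (dec L P) : ℝ) * (below L P : ℝ) ^ (-s)

/-- `∑ |D_P| p_P^{-s}` over the primes `P ∤ δ` with decomposition group `D`. -/
noncomputable def aSum (δ : ℕ) (D : Subgroup Gal(L/ℚ)) (s : ℝ) : ℝ :=
  ∑' P : {P : HeightOneSpectrum (𝓞 L) | ¬ below L P ∣ δ ∧ dec L P = D}, wTerm L s P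

/-- `∑ |D_P| p_P^{-s}` over the primes `P ∤ δ` with decomposition group contained in `U`. -/
noncomputable def tSum (δ : ℕ) (U : Subgroup Gal(L/ℚ)) (s : ℝ) : ℝ :=
  ∑' P : {P : HeightOneSpectrum (𝓞 L) | ¬ below L P ∣ δ ∧ dec L P ≤ U}, wTerm L s P

/-- the primes of degree one not dividing `δ`. -/
def goodOne (δ : ℕ) : Set (HeightOneSpectrum (𝓞 L)) :=
  {w | ¬ below L w ∣ δ ∧ (Ideal.absNorm w.asIdeal).Prime}

/-- number of generators of a subgroup. -/
noncomputable def gen {G : Type*} [Group G] (U : Subgroup G) : ℕ :=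
  Nat.card {x : G // Subgroup.zpowers x = U}

end Fermat.Agent.FD
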