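import Fermat.Agent.FD.Defs

/-!
# FD, task F8: Möbius inversion on the subgroup lattice (pure group theory + estimates)

Sketch.  `card_eq_finsum_gen`: partition `U` by `x ↦ zpowers x` (`zpowers x ≤ U ↔ x ∈ U`).
`induct`: strong induction on `U` (`Finite (Subgroup G)`, well-founded `<`; or induction on
`Nat.card U`):  `a U = (∑_{D ≤ U} a D) - ∑_{D < U} a D`, `gen U = |U| - ∑_{D < U} gen D`; finitely many
eventual bounds can be intersected (`Filter.eventually_all` for a `Finite` index type) and the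
constants added.
-/

set_option autoImplicit false

namespace Fermat.Agent.FD

open Filter

theorem card_eq_finsum_gen {G : Type*} [Group G] [Finite G] (U : Subgroup G) :
    Nat.card U = ∑ᶠ D : {D : Subgroup G // D ≤ U}, gen (D : Subgroup G) := by
  classical
  have := Fintype.ofFinite {D : Subgroup G // D ≤ U}
  rw [finsum_eq_sum_of_fintype]
  unfold gen
  rw [← Nat.card_sigma]
  refine Nat.card_congr ⟨fun x => ⟨⟨Subgroup.zpowers x.1, (Subgroup.zpowers_le).mpr x.2⟩, ⟨x.1, rfl⟩⟩,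
    fun y => ⟨y.2.1, y.1.2 (by
      have h := y.2.2
      exact h.le (Subgroup.mem_zpowers y.2.1))⟩, fun _ => rfl, ?_⟩
  rintro ⟨⟨D, hD⟩, ⟨x, hx⟩⟩
  have hx' : Subgroup.zpowers x = D := hx
  subst hx'
  rfl

theorem gen_zpowers_pos {G : Type*} [Group G] [Finite G] (g : G) :
    0 < gen (Subgroup.zpowers g) := by
  have : Nonempty {x : G // Subgroup.zpowers x = Subgroup.zpowers g} := ⟨⟨g, rfl⟩⟩
  exact Nat.card_pos

theorem induct {G : Type*} [Group G] [Finite G] (a : Subgroup G → ℝ → ℝ) (ℓ : ℝ → ℝ)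
    (F : Filter ℝ)
    (h : ∀ U : Subgroup G, ∃ C : ℝ, ∀ᶠ s in F,
      |(∑ᶠ D : {D : Subgroup G // D ≤ U}, a D s) - (Nat.card U : ℝ) * ℓ s| ≤ C)
    (U : Subgroup G) :
    ∃ C : ℝ, ∀ᶠ s in F, |a U s - (gen U : ℝ) * ℓ s| ≤ C := by
  classical
  induction U using WellFoundedLT.induction with
  | ind U IH =>
    have := Fintype.ofFinite {D : Subgroup G // D ≤ U}
    obtain ⟨C₀, hC₀⟩ := h U
    set top : {D : Subgroup G // D ≤ U} := ⟨U, le_rfl⟩ with htop
    have IH' : ∀ D : {D : Subgroup G // D ≤ U}, ∃ C : ℝ, D ≠ top →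
        ∀ᶠ s in F, |a D s - (gen (D : Subgroup G) : ℝ) * ℓ s| ≤ C := by
      intro D
      by_cases hD : D = top
      · exact ⟨0, fun h => absurd hD h⟩
      · obtain ⟨C, hC⟩ := IH D.1 (lt_of_le_of_ne D.2 fun h => hD (Subtype.ext h))
        exact ⟨C, fun _ => hC⟩
    choose C hC using IH'
    refine ⟨C₀ + ∑ D ∈ Finset.univ.erase top, C D, ?_⟩
    have hall : ∀ᶠ s in F, ∀ D ∈ Finset.univ.erase top,
        |a D s - (gen (D : Subgroup G) : ℝ) * ℓ s| ≤ C D :=
      (Filter.eventually_all_finset _).mpr fun D hD => hC D (Finset.ne_of_mem_erase hD)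
    filter_upwards [hC₀, hall] with s h0 h1
    rw [finsum_eq_sum_of_fintype, ← Finset.add_sum_erase _ _ (Finset.mem_univ top)] at h0
    have hcard : (Nat.card U : ℝ) = (gen U : ℝ) +
        ∑ D ∈ Finset.univ.erase top, (gen (D : Subgroup G) : ℝ) := by
      have := card_eq_finsum_gen U
      rw [finsum_eq_sum_of_fintype, ← Finset.add_sum_erase _ _ (Finset.mem_univ top)] at this
      rw [this]
      push_cast
      rfl
    have hdecomp : a U s - (gen U : ℝ) * ℓ s =
        ((a top s + ∑ D ∈ Finset.univ.erase top, a D s) - (Nat.card U : ℝ) * ℓ s) -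
          ∑ D ∈ Finset.univ.erase top, (a D s - (gen (D : Subgroup G) : ℝ) * ℓ s) := by
      rw [hcard, Finset.sum_sub_distrib, add_mul, Finset.sum_mul]
      ring
    rw [hdecomp]
    calc |_ - _| ≤ |(a top s + ∑ D ∈ Finset.univ.erase top, a D s) - (Nat.card U : ℝ) * ℓ s| +
          |∑ D ∈ Finset.univ.erase top, (a D s - (gen (D : Subgroup G) : ℝ) * ℓ s)| :=
          abs_sub _ _
      _ ≤ C₀ + ∑ D ∈ Finset.univ.erase top, C D := by
          refine add_le_add h0 ?_
          exact (Finset.abs_sum_le_sum_abs _ _).trans (Finset.sum_le_sum h1)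

end Fermat.Agent.FD
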