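import Fermat.Agent.FD.Fiber

/-!
# FD, task F7: `tSum δ U s = ∑_{D ≤ U} aSum δ D s`

Sketch.  `{P | ¬ below P ∣ δ ∧ dec P ≤ U}` is the disjoint union over the finitely many subgroups
`D ≤ U` of `{P | ¬ below P ∣ δ ∧ dec P = D}`; `summable_wTerm`;
`Summable.tsum_finsetBUnion_disjoint` (or `Equiv.sigmaFiberEquiv` + `tsum_fintype`).
-/

set_option autoImplicit false
set_option linter.unusedSectionVars false

namespace Fermat.Agent.FD

open NumberField IsDedekindDomain Pointwise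

variable (L : Type*) [Field L] [NumberField L] [IsGalois ℚ L]

open Classical in
theorem tSum_eq_sum_aSum (δ : ℕ) (U : Subgroup Gal(L/ℚ)) {s : ℝ} (hs : 1 < s) :
    tSum L δ U s = ∑ᶠ D : {D : Subgroup Gal(L/ℚ) // D ≤ U}, aSum L δ D s := by
  have hfin : Finite {D : Subgroup Gal(L/ℚ) // D ≤ U} := inferInstance
  have := Fintype.ofFinite {D : Subgroup Gal(L/ℚ) // D ≤ U}
  have hsum := summable_wTerm L hs
  rw [finsum_eq_sum_of_fintype]
  unfold tSum aSum
  rw [tsum_subtype {P : HeightOneSpectrum (𝓞 L) | ¬ below L P ∣ δ ∧ dec L P ≤ U} (wTerm L s)]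
  have h1 : ∀ D : {D : Subgroup Gal(L/ℚ) // D ≤ U},
      ∑' P : {P : HeightOneSpectrum (𝓞 L) | ¬ below L P ∣ δ ∧ dec L P = D.1}, wTerm L s P =
      ∑' P, {P : HeightOneSpectrum (𝓞 L) | ¬ below L P ∣ δ ∧ dec L P = D.1}.indicator
        (wTerm L s) P := fun D =>
    tsum_subtype {P : HeightOneSpectrum (𝓞 L) | ¬ below L P ∣ δ ∧ dec L P = D.1} (wTerm L s)
  rw [Finset.sum_congr rfl (fun D _ => h1 D), ← Summable.tsum_finsetSum
    (fun D _ => hsum.indicator _)]
  refine tsum_congr fun P => ?_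
  by_cases hP : ¬ below L P ∣ δ ∧ dec L P ≤ U
  · rw [Set.indicator_of_mem (show P ∈ {P : HeightOneSpectrum (𝓞 L) |
      ¬ below L P ∣ δ ∧ dec L P ≤ U} from hP),
      Finset.sum_eq_single (⟨dec L P, hP.2⟩ : {D : Subgroup Gal(L/ℚ) // D ≤ U})]
    · rw [Set.indicator_of_mem]
      exact ⟨hP.1, rfl⟩
    · intro D _ hD
      rw [Set.indicator_of_notMem]
      rintro ⟨-, h⟩
      exact hD (Subtype.ext h.symm)
    · intro h
      exact absurd (Finset.mem_univ _) h
  · rw [Set.indicator_of_notMem (show P ∉ {P : HeightOneSpectrum (𝓞 L) |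
      ¬ below L P ∣ δ ∧ dec L P ≤ U} from hP)]
    symm
    refine Finset.sum_eq_zero fun D _ => ?_
    rw [Set.indicator_of_notMem]
    rintro ⟨h1, h2⟩
    exact hP ⟨h1, h2 ▸ D.2⟩

end Fermat.Agent.FD
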