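import Fermat.Agent.FD.Inertia
import Fermat.Agent.FD.Partition
import Fermat.Agent.FD.Analytic
import Fermat.Agent.FD.Induct

/-!
# FD: existence of an unramified prime with prescribed cyclic decomposition group (assembly)
-/

set_option autoImplicit false

namespace Fermat.Agent.FD

open NumberField IsDedekindDomain Filter Topology Pointwise
open Fermat.Agent.S14 (primeSum)

theorem tendsto_log_atTop : Tendsto (fun s : ℝ => Real.log (1 / (s - 1))) (𝓝[>] 1) atTop := by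
  have h1 : Tendsto (fun s : ℝ => s - 1) (𝓝[>] 1) (𝓝[>] 0) := by
    have : Tendsto (fun s : ℝ => s - 1) (𝓝 1) (𝓝 0) := by
      have h0 : Continuous fun s : ℝ => s - 1 := by fun_prop
      have := h0.tendsto 1
      rwa [sub_self] at this
    refine tendsto_nhdsWithin_iff.mpr ⟨this.mono_left nhdsWithin_le_nhds, ?_⟩
    filter_upwards [self_mem_nhdsWithin] with s hs
    have : (1 : ℝ) < s := hs
    show 0 < s - 1
    linarith
  have h2 : Tendsto (fun s : ℝ => 1 / (s - 1)) (𝓝[>] 1) atTop := by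
    simp only [one_div]
    exact tendsto_inv_nhdsGT_zero.comp h1
  exact Real.tendsto_log_atTop.comp h2

variable (L : Type*) [Field L] [NumberField L] [IsGalois ℚ L]

theorem aSum_bounds (δ : ℕ) (hδ0 : δ ≠ 0)
    (hδ : ∀ P : HeightOneSpectrum (𝓞 L), ¬ below L P ∣ δ →
      Ideal.inertia Gal(L/ℚ) P.asIdeal = ⊥) (U : Subgroup Gal(L/ℚ)) :
    ∃ C : ℝ, ∀ᶠ s in 𝓝[>] (1 : ℝ),
      |aSum L δ U s - (gen U : ℝ) * Real.log (1 / (s - 1))| ≤ C := by
  refine induct (fun D s => aSum L δ D s) (fun s => Real.log (1 / (s - 1))) _ (fun U => ?_) U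
  obtain ⟨C, hC⟩ := primeSum_goodOne_bounds (fixedF L U) hδ0
  refine ⟨(Nat.card U : ℝ) * C, ?_⟩
  filter_upwards [hC, self_mem_nhdsWithin] with s h1 hs
  have hs' : 1 < s := hs
  rw [← tSum_eq_sum_aSum L δ U hs', tSum_eq L δ hδ U hs', ← mul_sub, abs_mul,
    abs_of_nonneg (Nat.cast_nonneg _)]
  exact mul_le_mul_of_nonneg_left h1 (Nat.cast_nonneg _)

/-- **Frobenius density, existence form.** -/
theorem exists_dec_eq_zpowers (B : ℕ) (hB : B ≠ 0) (g : Gal(L/ℚ)) :
    ∃ P : HeightOneSpectrum (𝓞 L), ¬ below L P ∣ B ∧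
      Ideal.inertia Gal(L/ℚ) P.asIdeal = ⊥ ∧ dec L P = Subgroup.zpowers g := by
  obtain ⟨δ, hδ0, hBδ, hδ⟩ := exists_inertia_eq_bot L B hB
  obtain ⟨C, hC⟩ := aSum_bounds L δ hδ0 hδ (Subgroup.zpowers g)
  have hL := tendsto_log_atTop.eventually (eventually_gt_atTop (max C 0))
  obtain ⟨s, h1, h2⟩ := (hC.and hL).exists
  have hgen : (1 : ℝ) ≤ (gen (Subgroup.zpowers g) : ℝ) := by
    exact_mod_cast gen_zpowers_pos g
  have hpos : 0 < aSum L δ (Subgroup.zpowers g) s := by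
    have h3 := (abs_le.mp h1).1
    have h4 : C < Real.log (1 / (s - 1)) := lt_of_le_of_lt (le_max_left _ _) h2
    have h5 : 0 < Real.log (1 / (s - 1)) := lt_of_le_of_lt (le_max_right _ _) h2
    nlinarith
  by_contra hcon
  have hempty : IsEmpty {P : HeightOneSpectrum (𝓞 L) |
      ¬ below L P ∣ δ ∧ dec L P = Subgroup.zpowers g} := by
    refine ⟨fun P => hcon ⟨P.1, fun hd => P.2.1 (hd.trans hBδ), hδ P.1 P.2.1, P.2.2⟩⟩
  have : aSum L δ (Subgroup.zpowers g) s = 0 := by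
    unfold aSum
    exact tsum_empty
  linarith

end Fermat.Agent.FD
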