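import Fermat.Agent.FD.Orbit

/-!
# FD, task F5: `tSum δ U s = |U| * primeSum (goodOne M δ) s`, `M = fixedF L U`

Sketch.  Let `X = {P | ¬ below P ∣ δ ∧ dec P ≤ U}`, `Y = goodOne M δ`, `π = underH M`.
By `below_underH`, `absNorm_underH_prime_iff`: `P ∈ X ↔ π P ∈ Y`.  For `P ∈ X`:
`wTerm s P = |stab_U P| * (N (π P)) ^ (-s)` (`card_stabilizer_eq_card_inf`, `inf_eq_left`,
`absNorm_underH_eq`).  Group the sum over `X` by the value of `π`
(`Equiv.sigmaFiberEquiv`, `Summable.tsum_sigma` / `tsum_sigma'`, `summable_sigma_of_nonneg`;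
see `Fermat.Agent.S14.summable_idealNorm_rpow` in `S14/Density/ZetaSum.lean` for the same pattern);
the inner sums are finite (`finite_underH_fiber`) and equal `|U| * N w ^ (-s)` by
`sum_card_stabilizer`.  Summability: `summable_wTerm`.
-/

set_option autoImplicit false
set_option linter.unusedSectionVars false

namespace Fermat.Agent.FD

open NumberField IsDedekindDomain Pointwise
open Fermat.Agent.S14 (primeSum)

variable (L : Type*) [Field L] [NumberField L] [IsGalois ℚ L]

theorem wTerm_nonneg (s : ℝ) (P : HeightOneSpectrum (𝓞 L)) : 0 ≤ wTerm L s P :=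
  mul_nonneg (Nat.cast_nonneg _) (Real.rpow_nonneg (Nat.cast_nonneg _) _)

/-- from `summable_below_rpow` and `|dec P| ≤ |G|`. -/
theorem summable_wTerm {s : ℝ} (hs : 1 < s) : Summable (wTerm L s) := by
  refine Summable.of_nonneg_of_le (wTerm_nonneg L s) (fun P => ?_)
    ((summable_below_rpow L hs).mul_left (Nat.card Gal(L/ℚ) : ℝ))
  refine mul_le_mul_of_nonneg_right ?_ (Real.rpow_nonneg (Nat.cast_nonneg _) _)
  exact_mod_cast Subgroup.card_le_card_group (dec L P)

/-- regrouping a sum along `underH`. -/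
theorem fiber_tsum_regroup (M : Type*) [Field M] [NumberField M] [Algebra M L]
    (c : HeightOneSpectrum (𝓞 L) → ℝ) (g : HeightOneSpectrum (𝓞 M) → ℝ)
    (hsum : Summable fun P => c P * g (underH M P)) :
    ∑' P, c P * g (underH M P) =
      ∑' w, (∑ P ∈ (finite_underH_fiber (L := L) M w).toFinset, c P) * g w := by
  rw [← (Equiv.sigmaFiberEquiv (underH (L := L) M)).tsum_eq, Summable.tsum_sigma]
  · refine tsum_congr fun w => ?_
    have h1 : ∀ P : {P : HeightOneSpectrum (𝓞 L) // underH M P = w},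
        c ((Equiv.sigmaFiberEquiv (underH (L := L) M)) ⟨w, P⟩) *
          g (underH M ((Equiv.sigmaFiberEquiv (underH (L := L) M)) ⟨w, P⟩)) = c P.1 * g w := by
      intro P
      show c P.1 * g (underH M P.1) = _
      rw [P.2]
    rw [tsum_congr h1, tsum_mul_right]
    congr 1
    rw [← Finset.tsum_subtype' (finite_underH_fiber (L := L) M w).toFinset c]
    exact (tsum_congr_set_coe c (finite_underH_fiber (L := L) M w).coe_toFinset).symm
  · exact ((Equiv.sigmaFiberEquiv (underH (L := L) M)).summable_iff).mpr hsum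

theorem fiber_key (δ : ℕ)
    (hδ : ∀ P : HeightOneSpectrum (𝓞 L), ¬ below L P ∣ δ →
      Ideal.inertia Gal(L/ℚ) P.asIdeal = ⊥)
    (U : Subgroup Gal(L/ℚ)) (s : ℝ) (P : HeightOneSpectrum (𝓞 L)) :
    {P : HeightOneSpectrum (𝓞 L) | ¬ below L P ∣ δ ∧ dec L P ≤ U}.indicator (wTerm L s) P =
      (Nat.card (MulAction.stabilizer U P.asIdeal) : ℝ) *
        (goodOne (fixedF L U) δ).indicator
          (fun w => (Ideal.absNorm w.asIdeal : ℝ) ^ (-s)) (underH (fixedF L U) P) := by
  by_cases hP : ¬ below L P ∣ δ ∧ dec L P ≤ U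
  · have hI := hδ P hP.1
    have hY : underH (fixedF L U) P ∈ goodOne (fixedF L U) δ :=
      ⟨by rw [below_underH]; exact hP.1, (absNorm_underH_prime_iff L U P hI).mpr hP.2⟩
    rw [Set.indicator_of_mem (show P ∈ {P : HeightOneSpectrum (𝓞 L) |
      ¬ below L P ∣ δ ∧ dec L P ≤ U} from hP), Set.indicator_of_mem hY,
      card_stabilizer_eq_card_inf, inf_eq_left.mpr hP.2, absNorm_underH_eq L U P hI hP.2]
    rfl
  · have hY : underH (fixedF L U) P ∉ goodOne (fixedF L U) δ := by
      rintro ⟨h1, h2⟩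
      rw [below_underH] at h1
      exact hP ⟨h1, (absNorm_underH_prime_iff L U P (hδ P h1)).mp h2⟩
    rw [Set.indicator_of_notMem (show P ∉ {P : HeightOneSpectrum (𝓞 L) |
      ¬ below L P ∣ δ ∧ dec L P ≤ U} from hP), Set.indicator_of_notMem hY, mul_zero]

theorem tSum_eq (δ : ℕ)
    (hδ : ∀ P : HeightOneSpectrum (𝓞 L), ¬ below L P ∣ δ →
      Ideal.inertia Gal(L/ℚ) P.asIdeal = ⊥)
    (U : Subgroup Gal(L/ℚ)) {s : ℝ} (hs : 1 < s) :
    tSum L δ U s = (Nat.card U : ℝ) * primeSum (goodOne (fixedF L U) δ) s := by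
  have hsum : Summable fun P : HeightOneSpectrum (𝓞 L) =>
      (Nat.card (MulAction.stabilizer U P.asIdeal) : ℝ) *
        (goodOne (fixedF L U) δ).indicator
          (fun w => (Ideal.absNorm w.asIdeal : ℝ) ^ (-s)) (underH (fixedF L U) P) := by
    refine ((summable_wTerm L hs).indicator
      {P : HeightOneSpectrum (𝓞 L) | ¬ below L P ∣ δ ∧ dec L P ≤ U}).congr fun P => ?_
    exact fiber_key L δ hδ U s P
  unfold tSum
  rw [tsum_subtype {P : HeightOneSpectrum (𝓞 L) | ¬ below L P ∣ δ ∧ dec L P ≤ U} (wTerm L s),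
    tsum_congr (fiber_key L δ hδ U s), fiber_tsum_regroup L (fixedF L U) _ _ hsum]
  have h2 : ∀ w : HeightOneSpectrum (𝓞 (fixedF L U)),
      (∑ P ∈ (finite_underH_fiber (L := L) (fixedF L U) w).toFinset,
        (Nat.card (MulAction.stabilizer U P.asIdeal) : ℝ)) = (Nat.card U : ℝ) := by
    intro w
    rw [← Nat.cast_sum, sum_card_stabilizer]
  simp only [h2]
  rw [tsum_mul_left, Fermat.Agent.S14.primeSum_eq_tsum_indicator]

end Fermat.Agent.FD
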