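import Fermat.Agent.FD.Below

/-!
# FD, task F1b: finiteness facts on the fibres of `underH` and `below`

Hints.  `underH_surjective`: `Ideal.exists_ideal_over_prime_of_isIntegral` /
`Ideal.exists_maximal_ideal_liesOver_of_isIntegral` / `(inferInstance : Nonempty (primesOver p B))`.
`finite_underH_fiber`: `P ↦ P.asIdeal` is injective into `(w.asIdeal.primesOver (𝓞 L))`, finite
(`IsDedekindDomain.primesOver_finite`, `Algebra.QuasiFinite.finite_primesOver`), or: pick
`0 ≠ x ∈ w`, then `algebraMap x ∈ P` and `Fermat.Agent.S14.finite_primes_of_mem`.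
`card_below_eq_le`: `Fermat.Agent.S14.zeta_card_primes_le` + `natCast_mem_iff`.
`finite_below_dvd`: `Fermat.Agent.S14.finite_primes_of_mem` with `x = δ` + `natCast_mem_iff`.
`summable_below_rpow`: `summable_of_sum_le` with the bound
`[L:ℚ] * ∑' n : ℕ, n ^ (-s)`; copy the computation of `Fermat.Agent.S14.zeta_sum_not_prime_le`
(`S14/Density/HigherDegree.lean`: `Finset.sum_comp` + `card_below_eq_le`).
-/

set_option autoImplicit false
set_option linter.unusedSectionVars false

namespace Fermat.Agent.FD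

open NumberField IsDedekindDomain Pointwise

variable {L : Type*} [Field L] [NumberField L]

/-- every prime of `M` lies under a prime of `L`. -/
theorem underH_surjective (M : Type*) [Field M] [NumberField M] [Algebra M L] :
    Function.Surjective (underH (L := L) M) := by
  intro w
  have := w.isPrime
  obtain ⟨⟨Q, hQ1, hQ2⟩⟩ := (inferInstance : Nonempty (w.asIdeal.primesOver (𝓞 L)))
  refine ⟨⟨Q, hQ1, ?_⟩, ?_⟩
  · exact Ideal.ne_bot_of_liesOver_of_ne_bot w.ne_bot Q
  · apply HeightOneSpectrum.ext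
    exact (hQ2.over).symm

/-- the fibres of `underH` are finite. -/
theorem finite_underH_fiber (M : Type*) [Field M] [NumberField M] [Algebra M L]
    (w : HeightOneSpectrum (𝓞 M)) : {P : HeightOneSpectrum (𝓞 L) | underH M P = w}.Finite := by
  obtain ⟨x, hx, hx0⟩ := Submodule.exists_mem_ne_zero_of_ne_bot w.ne_bot
  have hx1 : algebraMap (𝓞 M) (𝓞 L) x ≠ 0 := by
    intro h
    apply hx0
    exact (FaithfulSMul.algebraMap_injective (𝓞 M) (𝓞 L)) (by rw [h, map_zero])
  refine (Fermat.Agent.S14.finite_primes_of_mem hx1).subset fun P hP => ?_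
  have hP' : underH M P = w := hP
  have h2 : x ∈ (underH M P).asIdeal := by rw [hP']; exact hx
  exact h2

variable (L)

/-- at most `[L : ℚ]` primes of `L` lie over a rational prime
(cf. `Fermat.Agent.S14.zeta_card_primes_le`). -/
theorem card_below_eq_le (p : ℕ) (F : Finset (HeightOneSpectrum (𝓞 L)))
    (hF : ∀ P ∈ F, below L P = p) : F.card ≤ Module.finrank ℚ L := by
  rcases F.eq_empty_or_nonempty with rfl | ⟨P₀, hP₀⟩
  · simp
  have hp : p.Prime := hF P₀ hP₀ ▸ below_prime L P₀
  exact Fermat.Agent.S14.zeta_card_primes_le L p hp F fun P hP => by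
    rw [natCast_mem_iff, hF P hP]

/-- the primes dividing a nonzero integer are finitely many. -/
theorem finite_below_dvd {δ : ℕ} (hδ : δ ≠ 0) :
    {P : HeightOneSpectrum (𝓞 L) | below L P ∣ δ}.Finite := by
  have h : (δ : 𝓞 L) ≠ 0 := by exact_mod_cast hδ
  refine (Fermat.Agent.S14.finite_primes_of_mem h).subset fun P hP => ?_
  exact (natCast_mem_iff L P δ).mpr hP

theorem fibers_sum_below_le {s : ℝ} (hs : 1 < s) (F : Finset (HeightOneSpectrum (𝓞 L))) :
    ∑ P ∈ F, (below L P : ℝ) ^ (-s) ≤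
      (Module.finrank ℚ L : ℝ) * ∑' n : ℕ, (n : ℝ) ^ (-s) := by
  classical
  have hsum : Summable fun n : ℕ => (n : ℝ) ^ (-s) := Real.summable_nat_rpow.mpr (by linarith)
  calc ∑ P ∈ F, (below L P : ℝ) ^ (-s)
      = ∑ P ∈ F, (fun n : ℕ => (n : ℝ) ^ (-s)) (below L P) := rfl
    _ = ∑ b ∈ F.image (below L), (F.filter fun a => below L a = b).card •
          (b : ℝ) ^ (-s) := Finset.sum_comp (fun n : ℕ => (n : ℝ) ^ (-s)) (below L)
    _ ≤ ∑ b ∈ F.image (below L), (Module.finrank ℚ L : ℝ) * (b : ℝ) ^ (-s) := by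
        refine Finset.sum_le_sum fun b _ => ?_
        rw [nsmul_eq_mul]
        refine mul_le_mul_of_nonneg_right ?_ (Real.rpow_nonneg (Nat.cast_nonneg _) _)
        have := card_below_eq_le L b (F.filter fun a => below L a = b)
          (fun P hP => (Finset.mem_filter.mp hP).2)
        exact_mod_cast this
    _ = (Module.finrank ℚ L : ℝ) * ∑ b ∈ F.image (below L), (b : ℝ) ^ (-s) := by
        rw [Finset.mul_sum]
    _ ≤ (Module.finrank ℚ L : ℝ) * ∑' n : ℕ, (n : ℝ) ^ (-s) := by
        refine mul_le_mul_of_nonneg_left ?_ (Nat.cast_nonneg _)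
        exact hsum.sum_le_tsum _ (fun i _ => Real.rpow_nonneg (Nat.cast_nonneg _) _)

/-- `∑_P p_P^{-s}` converges for `s > 1`. -/
theorem summable_below_rpow {s : ℝ} (hs : 1 < s) :
    Summable fun P : HeightOneSpectrum (𝓞 L) => (below L P : ℝ) ^ (-s) :=
  summable_of_sum_le (fun _ => Real.rpow_nonneg (Nat.cast_nonneg _) _)
    (fibers_sum_below_le L hs)

end Fermat.Agent.FD
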