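import Fermat.Agent.FD.Below

/-!
# FD, task F2: the inertia groups are trivial outside a finite set of rational primes

Sketch.  For `τ ≠ 1` in `G = Gal(L/ℚ)` pick `x_τ : 𝓞 L` with `τ • x_τ ≠ x_τ` (faithful action:
`IsGaloisGroup.faithful`, or: `L = Frac (𝓞 L)`).  If `τ ∈ inertia G P` then `τ • x_τ - x_τ ∈ P`.
By `Fermat.Agent.S14.finite_primes_of_mem` the set `Bad` of the primes `P` containing one of the
`τ • x_τ - x_τ` is finite (`G` is finite).  Take `δ = B * ∏_{P ∈ Bad} below P`.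
-/

set_option autoImplicit false

namespace Fermat.Agent.FD

open NumberField IsDedekindDomain Pointwise

variable (L : Type*) [Field L] [NumberField L] [IsGalois ℚ L]

theorem inertia_exists_moved (τ : Gal(L/ℚ)) (hτ : τ ≠ 1) : ∃ x : 𝓞 L, τ • x - x ≠ 0 := by
  by_contra hcon
  push Not at hcon
  apply hτ
  have hf : FaithfulSMul Gal(L/ℚ) (𝓞 L) := IsGaloisGroup.faithful ℤ
  apply hf.eq_of_smul_eq_smul
  intro x
  rw [one_smul]
  exact sub_eq_zero.mp (hcon x)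

theorem finite_inertia_ne_bot :
    {P : HeightOneSpectrum (𝓞 L) | Ideal.inertia Gal(L/ℚ) P.asIdeal ≠ ⊥}.Finite := by
  classical
  choose! x hx using inertia_exists_moved L
  have hfin : (⋃ τ ∈ {τ : Gal(L/ℚ) | τ ≠ 1},
      {P : HeightOneSpectrum (𝓞 L) | τ • x τ - x τ ∈ P.asIdeal}).Finite :=
    Set.Finite.biUnion (Set.toFinite _) fun τ hτ => Fermat.Agent.S14.finite_primes_of_mem (hx τ hτ)
  refine hfin.subset fun P hP => ?_
  have hP' : Ideal.inertia Gal(L/ℚ) P.asIdeal ≠ ⊥ := hP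
  obtain ⟨τ, hτ1⟩ := Subgroup.ne_bot_iff_exists_ne_one.mp hP'
  have hτ1' : (τ : Gal(L/ℚ)) ≠ 1 := fun h => hτ1 (Subtype.ext h)
  exact Set.mem_biUnion (x := (τ : Gal(L/ℚ))) hτ1' (τ.2 (x τ))

theorem exists_inertia_eq_bot (B : ℕ) (hB : B ≠ 0) :
    ∃ δ : ℕ, δ ≠ 0 ∧ B ∣ δ ∧ ∀ P : HeightOneSpectrum (𝓞 L), ¬ below L P ∣ δ →
      Ideal.inertia Gal(L/ℚ) P.asIdeal = ⊥ := by
  classical
  have hfin := finite_inertia_ne_bot L
  refine ⟨B * ∏ P ∈ hfin.toFinset, below L P, ?_, Dvd.intro _ rfl, fun P hP => ?_⟩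
  · exact mul_ne_zero hB (Finset.prod_ne_zero_iff.mpr fun P _ => (below_prime L P).ne_zero)
  · by_contra hcon
    apply hP
    exact Dvd.dvd.mul_left (Finset.dvd_prod_of_mem _ (hfin.mem_toFinset.mpr hcon)) B

end Fermat.Agent.FD
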