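import Fermat.Agent.FD.Below
import Fermat.Agent.S54.Frob

/-!
# FD, task F10: from a prime of a finite Galois level `L ⊆ ℚ̄` to a valuation subring of `ℚ̄`

Sketch.  `exists_valuationSubring_over`: as in `Fermat.Agent.S54.exists_liesOverPrime`: the
localisation `R` of `𝓞 L` at `P` maps to `ℚ̄`; `IsLocalRing.exists_factor_valuationRing` gives a
valuation subring `A ⊇ R` dominating `R`.  So `x ∈ P → x ∈ A.nonunits`; conversely
`{x : 𝓞 L | x ∈ A.nonunits}` is a proper ideal containing the maximal ideal `P`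
(`Fermat.Agent.S54.nonunits_add`, `nonunits_mul_mem`, `integralClosure_le`).
`(below P : ℚ̄) ∈ A.nonunits` by `natCast_mem_iff`.
`frob_restrict`: `x : 𝓞 L` lies in `A` (`Fermat.Agent.S54.integralClosure_le`); `hσ.smul_residue_eq`
applied to the residue class of `x` says `σ x - x ^ p ∈ 𝔪_A`
(`IsLocalRing.ResidueField.residue_smul`, `IsLocalRing.residue_eq_zero_iff`, cf. the end of
`Fermat.Agent.S54.exists_isFrobeniusAt`); `AlgEquiv.restrictNormal_commutes`.
-/

set_option autoImplicit false
set_option linter.unusedSectionVars false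

namespace Fermat.Agent.FD

open NumberField IsDedekindDomain Pointwise

variable (L : IntermediateField ℚ (AlgebraicClosure ℚ)) [FiniteDimensional ℚ L]

instance numberField_level : NumberField L where
  to_charZero := inferInstance
  to_finiteDimensional := inferInstance

theorem exists_valuationSubring_over (P : HeightOneSpectrum (𝓞 L)) :
    ∃ A : ValuationSubring (AlgebraicClosure ℚ), A.LiesOverPrime (below L P) ∧
      ∀ x : 𝓞 L, x ∈ P.asIdeal ↔ (((x : L) : AlgebraicClosure ℚ)) ∈ A.nonunits := by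
  have hprime := P.isPrime
  let R := Localization.AtPrime P.asIdeal
  let g : 𝓞 L →+* AlgebraicClosure ℚ :=
    (algebraMap L (AlgebraicClosure ℚ)).comp (algebraMap (𝓞 L) L)
  have hg : Function.Injective g :=
    (algebraMap L (AlgebraicClosure ℚ)).injective.comp (RingOfIntegers.coe_injective)
  let f : R →+* AlgebraicClosure ℚ := IsLocalization.lift (M := P.asIdeal.primeCompl) (g := g) (by
      intro y
      apply IsUnit.mk0
      intro h
      have hy : (y : 𝓞 L) = 0 := hg (by rw [h, map_zero])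
      exact y.2 (by rw [hy]; exact Ideal.zero_mem _))
  have hf : ∀ x : 𝓞 L, f (algebraMap (𝓞 L) R x) = g x := fun x => IsLocalization.lift_eq _ x
  obtain ⟨A, hA, hloc⟩ := IsLocalRing.exists_factor_valuationRing f
  have key : ∀ x : 𝓞 L, x ∈ P.asIdeal ↔ (((x : L) : AlgebraicClosure ℚ)) ∈ A.nonunits := by
    intro x
    have hx : (((x : L) : AlgebraicClosure ℚ)) = f (algebraMap (𝓞 L) R x) := (hf x).symm
    have hunit : IsUnit (algebraMap (𝓞 L) R x) ↔ x ∈ P.asIdeal.primeCompl :=
      IsLocalization.AtPrime.isUnit_to_map_iff R P.asIdeal x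
    rw [ValuationSubring.mem_nonunits_iff_exists_mem_maximalIdeal]
    constructor
    · intro hxP
      refine ⟨by rw [hx]; exact hA _, ?_⟩
      rw [IsLocalRing.mem_maximalIdeal, mem_nonunits_iff]
      intro hu
      have hu' : IsUnit ((f.codRestrict A.toSubring hA) (algebraMap (𝓞 L) R x)) := by
        convert hu using 1
        exact Subtype.ext hx.symm
      exact (hunit.mp (hloc.map_nonunit _ hu')) hxP
    · rintro ⟨ha, hmem⟩
      by_contra hxP
      have hu : IsUnit ((f.codRestrict A.toSubring hA) (algebraMap (𝓞 L) R x)) :=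
        (hunit.mpr hxP).map _
      rw [IsLocalRing.mem_maximalIdeal, mem_nonunits_iff] at hmem
      apply hmem
      convert hu using 1
      exact Subtype.ext hx
  refine ⟨A, ?_, key⟩
  have h1 : ((below L P : ℕ) : 𝓞 L) ∈ P.asIdeal := (natCast_mem_iff L P _).mpr dvd_rfl
  have h2 := (key _).mp h1
  show ((below L P : ℕ) : AlgebraicClosure ℚ) ∈ A.nonunits
  simpa using h2

theorem frob_restrict [IsGalois ℚ L] (P : HeightOneSpectrum (𝓞 L))
    (A : ValuationSubring (AlgebraicClosure ℚ))
    (hA : ∀ x : 𝓞 L, x ∈ P.asIdeal ↔ (((x : L) : AlgebraicClosure ℚ)) ∈ A.nonunits)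
    (σ : AlgebraicClosure ℚ ≃ₐ[ℚ] AlgebraicClosure ℚ) (hσ : A.IsFrobeniusAt σ (below L P))
    (x : 𝓞 L) :
    (AlgEquiv.restrictNormalHom L σ) • x - x ^ below L P ∈ P.asIdeal := by
  rw [hA]
  set y : AlgebraicClosure ℚ := ((x : L) : AlgebraicClosure ℚ) with hy
  have hyint : y ∈ integralClosure ℤ (AlgebraicClosure ℚ) := by
    have h1 : IsIntegral ℤ (x : L) := x.2
    exact h1.map (IsScalarTower.toAlgHom ℤ L (AlgebraicClosure ℚ))
  have hyA : y ∈ A := Fermat.Agent.S54.integralClosure_le A y hyint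
  have h1 := hσ.smul_residue_eq (IsLocalRing.residue A ⟨y, hyA⟩)
  rw [← IsLocalRing.ResidueField.residue_smul, ← map_pow, ← sub_eq_zero, ← map_sub,
    IsLocalRing.residue_eq_zero_iff] at h1
  rw [ValuationSubring.mem_nonunits_iff_exists_mem_maximalIdeal]
  have h2 : (((((AlgEquiv.restrictNormalHom L σ) • x - x ^ below L P : 𝓞 L) : L) :
      AlgebraicClosure ℚ)) = σ y - y ^ below L P := by
    push_cast
    congr 1
    exact AlgEquiv.restrictNormal_commutes σ L (x : L)
  rw [h2]
  exact ⟨_, h1⟩

end Fermat.Agent.FD
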