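import Fermat.Agent.FD.Below

/-!
# FD, task F3: Hilbert theory at an unramified prime

`U ≤ G = Gal(L/ℚ)`, `M = fixedF L U`, `P` a prime of `L` with trivial inertia group, `w = P ∩ M`.

Sketch.  `IsGaloisGroup U (𝓞 M) (𝓞 L)` is `isGaloisGroup_fixedF` below.  Mathlib:
`Ideal.card_stabilizer_eq_card_inertia_mul_finrank` for `(G, ℤ, 𝓞 L)` and for `(U, 𝓞 M, 𝓞 L)`
(`PerfectField` of the residue fields: finite fields), `Ideal.inertiaDeg_tower`:
`|dec P| = f(P/p)`, `|stab_U P| = f(P/w)` (the inertia group in `U` injects in the one in `G`),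
`f(P/p) = f(w/p) f(P/w)`; `stab_U P ≃ dec P ⊓ U` (`Subgroup.subgroupOf`).  So `f(w/p) = 1` iff
`|dec P ⊓ U| = |dec P|` iff `dec P ≤ U`.  Then `absNorm_prime_iff`, `absNorm_eq_below_of_prime`,
`below_underH`.
-/

set_option autoImplicit false
set_option linter.unusedSectionVars false

namespace Fermat.Agent.FD

open NumberField IsDedekindDomain Pointwise

variable (L : Type*) [Field L] [NumberField L] [IsGalois ℚ L]

instance isGaloisGroup_fixedF (U : Subgroup Gal(L/ℚ)) :
    IsGaloisGroup U (𝓞 (fixedF L U)) (𝓞 L) :=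
  IsGaloisGroup.of_isFractionRing U _ _ (fixedF L U) L

theorem card_dec_eq (P : HeightOneSpectrum (𝓞 L))
    (hI : Ideal.inertia Gal(L/ℚ) P.asIdeal = ⊥) :
    Nat.card (dec L P) = P.asIdeal.inertiaDeg ℤ := by
  have := P.isPrime
  have hp := below_prime L P
  have : Fact (below L P).Prime := ⟨hp⟩
  have hmax : (Ideal.span {(below L P : ℤ)}).IsMaximal := inferInstance
  have : Finite (ℤ ⧸ Ideal.span {(below L P : ℤ)}) := by
    exact Ring.HasFiniteQuotients.finiteQuotient (by simpa using hp.ne_zero)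
  have : Finite (Ideal.span {(below L P : ℤ)}).ResidueField := inferInstance
  have h := Ideal.card_stabilizer_eq_card_inertia_mul_finrank (G := Gal(L/ℚ))
    (Ideal.span {(below L P : ℤ)}) P.asIdeal
  rw [hI, Subgroup.card_bot, one_mul] at h
  exact h

theorem local_inertia_eq_bot (U : Subgroup Gal(L/ℚ)) (P : HeightOneSpectrum (𝓞 L))
    (hI : Ideal.inertia Gal(L/ℚ) P.asIdeal = ⊥) : Ideal.inertia U P.asIdeal = ⊥ := by
  rw [eq_bot_iff]
  intro u hu
  have h1 : (u : Gal(L/ℚ)) ∈ Ideal.inertia Gal(L/ℚ) P.asIdeal := fun x => hu x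
  rw [hI, Subgroup.mem_bot] at h1
  rw [Subgroup.mem_bot]
  exact Subtype.ext h1

theorem card_stabilizer_eq_inertiaDeg (U : Subgroup Gal(L/ℚ)) (P : HeightOneSpectrum (𝓞 L))
    (hI : Ideal.inertia Gal(L/ℚ) P.asIdeal = ⊥) :
    Nat.card (MulAction.stabilizer U P.asIdeal) = P.asIdeal.inertiaDeg (𝓞 (fixedF L U)) := by
  have := P.isPrime
  have := (underH (fixedF L U) P).isPrime
  have hmax : (underH (fixedF L U) P).asIdeal.IsMaximal := (underH (fixedF L U) P).isMaximal
  have : Finite (𝓞 (fixedF L U) ⧸ (underH (fixedF L U) P).asIdeal) :=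
    Ring.HasFiniteQuotients.finiteQuotient (underH (fixedF L U) P).ne_bot
  have : Finite (underH (fixedF L U) P).asIdeal.ResidueField := inferInstance
  have h := Ideal.card_stabilizer_eq_card_inertia_mul_finrank (G := U)
    (underH (fixedF L U) P).asIdeal P.asIdeal
  rw [local_inertia_eq_bot L U P hI, Subgroup.card_bot, one_mul] at h
  exact h

theorem card_stabilizer_eq_card_inf (U : Subgroup Gal(L/ℚ)) (P : HeightOneSpectrum (𝓞 L)) :
    Nat.card (MulAction.stabilizer U P.asIdeal) = Nat.card (dec L P ⊓ U : Subgroup Gal(L/ℚ)) := by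
  refine Nat.card_congr ⟨fun u => ⟨u.1.1, u.2, u.1.2⟩, fun g => ⟨⟨g.1, g.2.2⟩, g.2.1⟩,
    fun _ => rfl, fun _ => rfl⟩

theorem absNorm_underH_prime_iff (U : Subgroup Gal(L/ℚ)) (P : HeightOneSpectrum (𝓞 L))
    (hI : Ideal.inertia Gal(L/ℚ) P.asIdeal = ⊥) :
    (Ideal.absNorm (underH (fixedF L U) P).asIdeal).Prime ↔ dec L P ≤ U := by
  rw [absNorm_prime_iff]
  have h1 := card_dec_eq L P hI
  have h2 := card_stabilizer_eq_inertiaDeg L U P hI
  have h3 := Ideal.inertiaDeg_tower (R := ℤ) (underH (fixedF L U) P).asIdeal P.asIdeal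
  rw [card_stabilizer_eq_card_inf] at h2
  rw [← h1, ← h2] at h3
  have hpos : 0 < Nat.card (dec L P ⊓ U : Subgroup Gal(L/ℚ)) := Nat.card_pos
  constructor
  · intro h
    rw [h, one_mul] at h3
    have : dec L P ⊓ U = dec L P :=
      Subgroup.eq_of_le_of_card_ge inf_le_left h3.le
    exact inf_eq_left.mp this
  · intro h
    rw [inf_eq_left.mpr h] at h3 hpos
    exact (Nat.eq_of_mul_eq_mul_right hpos (by rw [one_mul]; exact h3)).symm

theorem absNorm_underH_eq (U : Subgroup Gal(L/ℚ)) (P : HeightOneSpectrum (𝓞 L))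
    (hI : Ideal.inertia Gal(L/ℚ) P.asIdeal = ⊥) (h : dec L P ≤ U) :
    Ideal.absNorm (underH (fixedF L U) P).asIdeal = below L P := by
  rw [absNorm_eq_below_of_prime _ _ ((absNorm_underH_prime_iff L U P hI).mpr h), below_underH]

end Fermat.Agent.FD
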