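import Fermat.Agent.FD.Exists
import Fermat.Agent.FD.Cyclic
import Fermat.Agent.FD.Lift

/-!
# FD: Frobenius density ("density-lite"), final statements
-/

set_option autoImplicit false

namespace Fermat.Agent.FD

open NumberField IsDedekindDomain Pointwise

local notation "Qb" => AlgebraicClosure ℚ

/-- abstract form, for an arbitrary `ℚ`-algebra structure on `L` (they are all equal, but not
definitionally). -/
theorem exists_prime_frob_generates (L : Type*) [Field L] [NumberField L] [a : Algebra ℚ L]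
    [IsGalois ℚ L] (B : ℕ) (hB : B ≠ 0) (g : L ≃ₐ[ℚ] L) :
    ∃ P : HeightOneSpectrum (𝓞 L), ¬ below L P ∣ B ∧
      ∀ τ : L ≃ₐ[ℚ] L, (∀ x : 𝓞 L, τ • x - x ^ below L P ∈ P.asIdeal) →
        Subgroup.zpowers τ = Subgroup.zpowers g := by
  obtain rfl : a = DivisionRing.toRatAlgebra := Subsingleton.elim _ _
  obtain ⟨P, hPB, hI, hdec⟩ := exists_dec_eq_zpowers L B hB g
  refine ⟨P, hPB, fun τ hτ => ?_⟩
  rw [← hdec]
  exact (dec_eq_zpowers_of_frob L P hI τ hτ).symm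

/-- Galois level. -/
theorem exists_frobenius_generates (N : IntermediateField ℚ Qb) [FiniteDimensional ℚ N]
    [IsGalois ℚ N] (B : ℕ) (hB : B ≠ 0) (g : Qb ≃ₐ[ℚ] Qb) :
    ∃ (ℓ : ℕ) (A : ValuationSubring Qb), ℓ.Prime ∧ ¬ ℓ ∣ B ∧ A.LiesOverPrime ℓ ∧
      ∀ σ : Qb ≃ₐ[ℚ] Qb, A.IsFrobeniusAt σ ℓ →
        Subgroup.zpowers (AlgEquiv.restrictNormalHom N σ) =
          Subgroup.zpowers (AlgEquiv.restrictNormalHom N g) := by
  obtain ⟨P, hPB, hP⟩ := exists_prime_frob_generates N B hB (AlgEquiv.restrictNormalHom N g)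
  obtain ⟨A, hA1, hA2⟩ := exists_valuationSubring_over N P
  exact ⟨below N P, A, below_prime N P, hPB, hA1, fun σ hσ =>
    hP _ (frob_restrict N P A hA2 σ hσ)⟩

theorem restrictNormalHom_pow_apply (N : IntermediateField ℚ Qb) [Normal ℚ N]
    (σ : Qb ≃ₐ[ℚ] Qb) (b : ℕ) (x : Qb) (hx : x ∈ N) :
    (((AlgEquiv.restrictNormalHom N σ) ^ b) ⟨x, hx⟩ : Qb) = (σ ^ b) x := by
  rw [← map_pow]
  exact AlgEquiv.restrictNormal_commutes (σ ^ b) N ⟨x, hx⟩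

theorem exists_pow_eq_of_zpowers_eq (N : IntermediateField ℚ Qb) [FiniteDimensional ℚ N]
    [Normal ℚ N] (σ g : Qb ≃ₐ[ℚ] Qb)
    (h : Subgroup.zpowers (AlgEquiv.restrictNormalHom N σ) =
      Subgroup.zpowers (AlgEquiv.restrictNormalHom N g)) :
    ∃ b : ℕ, ∀ x ∈ N, (σ ^ b) x = g x := by
  have h1 : AlgEquiv.restrictNormalHom N g ∈ Subgroup.zpowers (AlgEquiv.restrictNormalHom N σ) := by
    rw [h]
    exact Subgroup.mem_zpowers _
  rw [← mem_powers_iff_mem_zpowers] at h1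
  obtain ⟨b, hb⟩ := h1
  refine ⟨b, fun x hx => ?_⟩
  rw [← restrictNormalHom_pow_apply N σ b x hx]
  have hb' : (AlgEquiv.restrictNormalHom N σ) ^ b = AlgEquiv.restrictNormalHom N g := hb
  rw [hb']
  exact AlgEquiv.restrictNormal_commutes g N ⟨x, hx⟩

/-- **Frobenius density ("density-lite").**  For a finite level `L ⊆ ℚ̄`, `B ≠ 0` and `g ∈ G_ℚ` there
are a prime `ℓ ∤ B` and a valuation subring `A` of `ℚ̄` over `ℓ` such that every Frobenius element `σ`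
at `A` satisfies `σ ^ b = g` and `g ^ k = σ` on `L` for suitable `b`, `k`.
(Frobenius elements at `A` exist: `Fermat.Agent.S54.exists_isFrobeniusAt`.) -/
theorem exists_frobenius_pow_eq (L : IntermediateField ℚ Qb) [FiniteDimensional ℚ L]
    (B : ℕ) (hB : B ≠ 0) (g : Qb ≃ₐ[ℚ] Qb) :
    ∃ (ℓ : ℕ) (A : ValuationSubring Qb), ℓ.Prime ∧ ¬ ℓ ∣ B ∧ A.LiesOverPrime ℓ ∧
      (∃ σ : Qb ≃ₐ[ℚ] Qb, A.IsFrobeniusAt σ ℓ) ∧
      ∀ σ : Qb ≃ₐ[ℚ] Qb, A.IsFrobeniusAt σ ℓ →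
        (∃ b : ℕ, ∀ x ∈ L, (σ ^ b) x = g x) ∧ (∃ k : ℕ, ∀ x ∈ L, (g ^ k) x = σ x) := by
  let N : IntermediateField ℚ Qb := IntermediateField.normalClosure ℚ L Qb
  have hLN : L ≤ N := IntermediateField.le_normalClosure L
  have : IsGalois ℚ Qb := Fermat.Agent.S54.isGalois_Lb
  have : FiniteDimensional ℚ N := normalClosure.is_finiteDimensional ℚ L Qb
  have : Normal ℚ N := normalClosure.normal ℚ L Qb
  have : IsGalois ℚ N := ⟨⟩
  obtain ⟨ℓ, A, hℓ, hℓB, hA, h⟩ := exists_frobenius_generates N B hB g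
  refine ⟨ℓ, A, hℓ, hℓB, hA, Fermat.Agent.S54.exists_isFrobeniusAt A hℓ hA, fun σ hσ => ⟨?_, ?_⟩⟩
  · obtain ⟨b, hb⟩ := exists_pow_eq_of_zpowers_eq N σ g (h σ hσ)
    exact ⟨b, fun x hx => hb x (hLN hx)⟩
  · obtain ⟨k, hk⟩ := exists_pow_eq_of_zpowers_eq N g σ (h σ hσ).symm
    exact ⟨k, fun x hx => hk x (hLN hx)⟩

end Fermat.Agent.FD
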