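import Fermat.Agent.FD.Local
import Fermat.Agent.FD.Fibers

/-!
# FD, task F4: `∑_{P ∣ w} |stab_U P| = |U|`

Sketch.  The primes of `L` over `w` form one `U`-orbit
(`Ideal.exists_smul_eq_of_isGaloisGroup` / `Algebra.IsInvariant.orbit_eq_primesOver`), the
stabilisers of the points of an orbit are conjugate, hence have the same cardinality, and
`|orbit| * |stab| = |U|` (`MulAction.card_orbit_mul_card_stabilizer_eq_card_group`,
or `Ideal.ncard_primesOver_mul_card_inertia_mul_finrank` +
`Ideal.card_stabilizer_eq_card_inertia_mul_finrank`).  The `Finset` is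
`(finite_underH_fiber _ w).toFinset`.
-/

set_option autoImplicit false
set_option linter.unusedSectionVars false

namespace Fermat.Agent.FD

open NumberField IsDedekindDomain Pointwise

variable (L : Type*) [Field L] [NumberField L] [IsGalois ℚ L]

theorem orbit_image_fiber (M : Type*) [Field M] [NumberField M] [Algebra M L]
    (w : HeightOneSpectrum (𝓞 M)) :
    (fun P : HeightOneSpectrum (𝓞 L) => P.asIdeal) '' {P | underH M P = w} =
      w.asIdeal.primesOver (𝓞 L) := by
  ext Q
  constructor
  · rintro ⟨P, hP, rfl⟩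
    have hP' : underH M P = w := hP
    exact ⟨P.isPrime, ⟨by rw [← hP']; rfl⟩⟩
  · rintro ⟨hQ1, hQ2⟩
    refine ⟨⟨Q, hQ1, Ideal.ne_bot_of_liesOver_of_ne_bot w.ne_bot Q⟩, ?_, rfl⟩
    apply HeightOneSpectrum.ext
    exact (hQ2.over).symm

theorem orbit_card_fiber (M : Type*) [Field M] [NumberField M] [Algebra M L]
    (w : HeightOneSpectrum (𝓞 M)) :
    (finite_underH_fiber (L := L) M w).toFinset.card = (w.asIdeal.primesOver (𝓞 L)).ncard := by
  rw [← orbit_image_fiber L M w, Set.ncard_image_of_injective _
    (fun a b hab => HeightOneSpectrum.ext hab), Set.ncard_eq_toFinset_card _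
    (finite_underH_fiber (L := L) M w)]

theorem orbit_mul_card_stabilizer (U : Subgroup Gal(L/ℚ)) (P : HeightOneSpectrum (𝓞 L)) :
    ((underH (fixedF L U) P).asIdeal.primesOver (𝓞 L)).ncard *
      Nat.card (MulAction.stabilizer U P.asIdeal) = Nat.card U := by
  have := P.isPrime
  have := (underH (fixedF L U) P).isPrime
  have hmax : (underH (fixedF L U) P).asIdeal.IsMaximal := (underH (fixedF L U) P).isMaximal
  have : Finite (𝓞 (fixedF L U) ⧸ (underH (fixedF L U) P).asIdeal) :=
    Ring.HasFiniteQuotients.finiteQuotient (underH (fixedF L U) P).ne_bot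
  have : Finite (underH (fixedF L U) P).asIdeal.ResidueField := inferInstance
  have h1 : Nat.card (MulAction.stabilizer U P.asIdeal) =
      Nat.card (Ideal.inertia U P.asIdeal) * P.asIdeal.inertiaDeg (𝓞 (fixedF L U)) :=
    Ideal.card_stabilizer_eq_card_inertia_mul_finrank (G := U)
      (underH (fixedF L U) P).asIdeal P.asIdeal
  rw [h1, ← mul_assoc]
  exact Ideal.ncard_primesOver_mul_card_inertia_mul_finrank (G := U)
    (underH (fixedF L U) P).asIdeal P.asIdeal

theorem sum_card_stabilizer (U : Subgroup Gal(L/ℚ)) (w : HeightOneSpectrum (𝓞 (fixedF L U))) :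
    ∑ P ∈ (finite_underH_fiber (L := L) (fixedF L U) w).toFinset,
      Nat.card (MulAction.stabilizer U P.asIdeal) = Nat.card U := by
  set F := (finite_underH_fiber (L := L) (fixedF L U) w).toFinset with hF
  have hcard : F.card = (w.asIdeal.primesOver (𝓞 L)).ncard := orbit_card_fiber L _ w
  have hpos : 0 < F.card := by
    obtain ⟨P, hP⟩ := underH_surjective (L := L) (fixedF L U) w
    exact Finset.card_pos.mpr ⟨P, (finite_underH_fiber (L := L) (fixedF L U) w).mem_toFinset.mpr hP⟩
  apply Nat.eq_of_mul_eq_mul_left hpos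
  rw [Finset.mul_sum]
  have : ∀ P ∈ F, F.card * Nat.card (MulAction.stabilizer U P.asIdeal) = Nat.card U := by
    intro P hP
    have hP' : underH (fixedF L U) P = w :=
      (finite_underH_fiber (L := L) (fixedF L U) w).mem_toFinset.mp hP
    rw [hcard, ← hP']
    exact orbit_mul_card_stabilizer L U P
  rw [Finset.sum_congr rfl this, Finset.sum_const, smul_eq_mul]

end Fermat.Agent.FD
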